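import Fermat.Agent.S41.IhTools
import Fermat.Agent.S41.IhGalB

/-!
# S41, block I, leaf (EN2): Ihara's lemma at `λ`
-/

set_option autoImplicit false
set_option synthInstance.maxHeartbeats 400000

open CongruenceSubgroup AlgebraicCurve ModularCurve UpperHalfPlane ModularForm
open scoped MatrixGroups Manifold

namespace Fermat.Agent.S41Lib

open Fermat.Agent.ESLib Fermat.Agent.S18Lib Fermat.Agent.S20Lib Fermat.Agent.S24Lib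
open Fermat.Agent.S34Lib Fermat.Agent.S40Lib Matrix

section

variable {N : ℕ} [NeZero N] {r : ℕ} (b : Module.Basis (Fin r) ℤ (EP N ℤ))
  (Θ₀ : TT0 N →+* Module.End ℤ (EP N ℤ)) (p q D : ℕ) (W : WeierstrassCurve ℤ)

/-- the `λ`-eigenspace in the first projection of the kernel of `a` -/
def ihX [Fact p.Prime] : Submodule (ZMod p) (Fin r → ZMod p) where
  carrier := {v | (∃ x y : EP N ℤ, P.crd b p x = v ∧
      InKer N q p (x : Additive (Gamma0 N) →+ ℤ) (y : Additive (Gamma0 N) →+ ℤ)) ∧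
    ∀ (ℓ : ℕ) (hℓ : ℓ.Prime) (hℓN : ¬ ℓ ∣ N), ¬ ℓ ∣ D →
      ihT b Θ₀ p hℓ hℓN *ᵥ v = ((W.apOfModel ℓ : ℤ) : ZMod p) • v}
  add_mem' := by
    rintro v v' ⟨⟨x, y, rfl, h⟩, h2⟩ ⟨⟨x', y', rfl, h'⟩, h2'⟩
    refine ⟨⟨x + x', y + y', map_add _ _ _, h.add h'⟩, fun ℓ hℓ hℓN hD => ?_⟩
    rw [Matrix.mulVec_add, h2 ℓ hℓ hℓN hD, h2' ℓ hℓ hℓN hD, smul_add]
  zero_mem' := ⟨⟨0, 0, map_zero _, InKer.zero N q p⟩, fun ℓ hℓ hℓN hD => by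
    rw [Matrix.mulVec_zero, smul_zero]⟩
  smul_mem' := by
    rintro c v ⟨⟨x, y, rfl, h⟩, h2⟩
    obtain ⟨n, rfl⟩ := ZMod.intCast_surjective c
    refine ⟨⟨n • x, n • y, ?_, h.zsmul n⟩, fun ℓ hℓ hℓN hD => ?_⟩
    · rw [map_zsmul, Int.cast_smul_eq_zsmul]
    · rw [Matrix.mulVec_smul, h2 ℓ hℓ hℓN hD, smul_comm]

variable {b Θ₀ p q D W}

theorem ihX_stable [Fact p.Prime] (H : TrunkHyp N) (hTr : P.IsThetaTr Θ₀) (hq : q.Prime)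
    (hqN : ¬ q ∣ N) (hp : 0 < p) (σ : GQ) (v : Fin r → ZMod p) (hv : v ∈ ihX b Θ₀ p q D W) :
    P.rhoM b H hp σ *ᵥ v ∈ ihX b Θ₀ p q D W := by
  obtain ⟨⟨x, y, rfl, h⟩, h2⟩ := hv
  obtain ⟨f, hf⟩ := H.exists_of_hom p hp x x.2
  obtain ⟨g, hg⟩ := H.exists_of_hom p hp y y.2
  obtain ⟨x', hx', hf'⟩ := H.exists_of_isKum hp (H.gal (H.isKum hp hf x.2) σ)
  obtain ⟨y', hy', hg'⟩ := H.exists_of_isKum hp (H.gal (H.isKum hp hg y.2) σ)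
  have hk := InKer.galB hq hqN hp x.2 y.2 hx' hy' h hf hg σ hf' hg'
  have h1 : P.Kap b p (ESLib.gal N σ f) (P.rhoM b H hp σ *ᵥ P.crd b p x) :=
    P.rhoM_spec H hp σ ⟨x, hf, rfl⟩
  have h3 : P.rhoM b H hp σ *ᵥ P.crd b p x = P.crd b p ⟨x', hx'⟩ :=
    h1.unique H hp ⟨⟨x', hx'⟩, hf', rfl⟩
  refine ⟨⟨⟨x', hx'⟩, ⟨y', hy'⟩, h3.symm, hk⟩, fun ℓ hℓ hℓN hD => ?_⟩
  have h4 := P.rhoM_comm_T (b := b) H hp hTr hℓ hℓN σ
  rw [Matrix.mulVec_mulVec, ihT, ← h4, ← Matrix.mulVec_mulVec]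
  have h5 := h2 ℓ hℓ hℓN hD
  rw [ihT] at h5
  rw [h5, Matrix.mulVec_smul]

theorem ihX_conj [Fact p.Prime] (H : TrunkHyp N) (hq : q.Prime)
    (hqN : ¬ q ∣ N) (hp : 0 < p) (v : Fin r → ZMod p) (hv : v ∈ ihX b Θ₀ p q D W) :
    P.rhoM b H hp complexConjugation *ᵥ v = -v := by
  obtain ⟨⟨x, y, rfl, h⟩, -⟩ := hv
  obtain ⟨f, hf⟩ := H.exists_of_hom p hp x x.2
  have hf' := Rt.conj x.2 hf
  have h1 : P.Kap b p (ESLib.gal N complexConjugation f)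
      (P.rhoM b H hp complexConjugation *ᵥ P.crd b p x) :=
    P.rhoM_spec H hp complexConjugation ⟨x, hf, rfl⟩
  have h3 := h1.unique H hp ⟨⟨_, io_mem_EP x.2⟩, hf', rfl⟩
  rw [h3, ← map_neg, P.crd_eq_iff]
  intro γ
  have h4 := h.sign hq hqN x.2 (Additive.toMul γ)
  rw [ofMul_toMul] at h4
  show (p : ℤ) ∣ -((x : Additive (Gamma0 N) →+ ℤ) (Additive.ofMul (ioHom N (Additive.toMul γ)))) -
    -((x : Additive (Gamma0 N) →+ ℤ) γ)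
  have h5 := (dvd_neg (α := ℤ)).2 h4
  have e : -((x : Additive (Gamma0 N) →+ ℤ) (Additive.ofMul (ioHom N (Additive.toMul γ)))) -
    -((x : Additive (Gamma0 N) →+ ℤ) γ) =
    -((x : Additive (Gamma0 N) →+ ℤ) (Additive.ofMul (ioHom N (Additive.toMul γ))) -
      (x : Additive (Gamma0 N) →+ ℤ) γ) := by ring
  rw [e]
  exact h5

end

/-- (EN2) **Ihara's lemma at `λ`**. -/
theorem ihara_lambda (W : WeierstrassCurve ℤ) (hΔ : W.Δ ≠ 0) {p : ℕ} [Fact p.Prime]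
    (hp2 : p ≠ 2) (hirr : W.ModRepIsIrreducible p) {N q : ℕ} [NeZero N] (hq : q.Prime)
    (hqN : ¬ q ∣ N) (D : ℕ) (hD : D ≠ 0)
    (Θ₀ : TT0 N →+* Module.End ℤ (EP N ℤ)) (hTr : P.IsThetaTr Θ₀) (x y : EP N ℤ)
    (hker : InKer N q p (x : Additive (Gamma0 N) →+ ℤ) (y : Additive (Gamma0 N) →+ ℤ))
    (heig : ∀ (ℓ : ℕ) (hℓ : ℓ.Prime) (hℓN : ¬ ℓ ∣ N), ¬ ℓ ∣ D → ∀ γ : Additive (Gamma0 N),
      (p : ℤ) ∣ ((Θ₀ (CuspForm.heckeAlgebra.T hℓ hℓN hℓN) x : EP N ℤ) :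
        Additive (Gamma0 N) →+ ℤ) γ - W.apOfModel ℓ * (x : Additive (Gamma0 N) →+ ℤ) γ) :
    ∀ γ : Additive (Gamma0 N), (p : ℤ) ∣ (x : Additive (Gamma0 N) →+ ℤ) γ := by
  have hpp : p.Prime := Fact.out
  have hp : 0 < p := hpp.pos
  have H : TrunkHyp N := (trunkHyp0 N).toTrunkHyp
  obtain ⟨r, b, -, -, -⟩ := H.theta
  rw [← P.crd_eq_zero_iff b p x]
  by_contra hne
  set X := ihX b Θ₀ p q D W with hX
  have hst : ∀ σ : GQ, ∀ v ∈ X, P.rhoM b H hp σ *ᵥ v ∈ X :=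
    fun σ v hv => ihX_stable H hTr hq hqN hp σ v hv
  -- `crd x ∈ X`
  have hxX : P.crd b p x ∈ X := by
    refine ⟨⟨x, y, rfl, hker⟩, fun ℓ hℓ hℓN hℓD => ?_⟩
    rw [ihT, ← P.crd_theta, Int.cast_smul_eq_zsmul, ← map_zsmul, P.crd_eq_iff]
    intro γ
    exact heig ℓ hℓ hℓN hℓD γ
  have : Nontrivial X := ⟨⟨⟨P.crd b p x, hxX⟩, 0, fun h => hne (congrArg Subtype.val h)⟩⟩
  refine PL_no_scalar W hΔ hp2 hirr (ihRes (P.rhoM b H hp) X hst) ?_ (D * N * p)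
    (mul_ne_zero (mul_ne_zero hD (NeZero.ne N)) hpp.ne_zero) ?_ (-1) ?_
  · obtain ⟨L, hL, h1⟩ := P.rhoM_level (b := b) H hp
    refine ⟨L, hL, fun σ hσ => ?_⟩
    apply LinearMap.ext
    intro v
    apply Subtype.ext
    rw [ihRes_apply, h1 σ hσ, Matrix.one_mulVec]
    rfl
  · intro ℓ hℓ hℓD 𝔄 h𝔄 σ hσ
    have hℓN : ¬ ℓ ∣ N := fun h => hℓD (Dvd.dvd.mul_right (Dvd.dvd.mul_left h D) p)
    have hℓD' : ¬ ℓ ∣ D := fun h => hℓD (Dvd.dvd.mul_right (Dvd.dvd.mul_right h N) p)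
    have hℓp : ¬ ℓ ∣ p := fun h => hℓD (Dvd.dvd.mul_left h _)
    have hes := P.rhoM_es (b := b) H hp hTr hℓ hℓN hℓp 𝔄 h𝔄 σ hσ
    apply LinearMap.ext
    intro v
    apply Subtype.ext
    have h1 := congrArg (fun M => M *ᵥ (v : Fin r → ZMod p)) hes
    simp only [Matrix.add_mulVec, Matrix.sub_mulVec, Matrix.zero_mulVec,
      ← Matrix.mulVec_mulVec] at h1
    have h2 := (hst σ v v.2).2 ℓ hℓ hℓN hℓD'
    rw [ihT] at h2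
    rw [h2, Matrix.natCast_mulVec] at h1
    exact h1
  · apply LinearMap.ext
    intro v
    apply Subtype.ext
    have h1 : P.rhoM b H hp complexConjugation *ᵥ (v : Fin r → ZMod p) = -(v : Fin r → ZMod p) :=
      ihX_conj (b := b) (Θ₀ := Θ₀) (D := D) (W := W) H hq hqN hp v v.2
    rw [ihRes_apply, h1, LinearMap.smul_apply, Module.End.one_apply, Submodule.coe_smul,
      neg_one_smul]

end Fermat.Agent.S41Lib
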