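import Fermat.Agent.S41.IhTools
import Fermat.Agent.S41.F.TopDefs

/-!
# S41, block I, leaf (PLUS): an `ι_*`-invariant eigenvector
-/

set_option autoImplicit false
set_option synthInstance.maxHeartbeats 400000

open CongruenceSubgroup AlgebraicCurve ModularCurve UpperHalfPlane ModularForm CuspForm
open ModularCurve.Period
open scoped MatrixGroups Manifold

namespace Fermat.Agent.S41Lib

open Fermat.Agent.ESLib Fermat.Agent.S18Lib Fermat.Agent.S20Lib Fermat.Agent.S24Lib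
open Fermat.Agent.S40Lib Matrix

section

variable {N : ℕ} [NeZero N] {r : ℕ} (b : Module.Basis (Fin r) ℤ (EP N ℤ))

/-- congruence modulo `p L` in coordinates -/
theorem PL_crd_eq_iff (p : ℕ) (A B : EP N ℤ) :
    P.crd b p A = P.crd b p B ↔ ∃ z : EP N ℤ, A = B + p • z := by
  constructor
  · intro h
    have h1 : P.crd b p (A - B) = 0 := by rw [map_sub, h, sub_self]
    obtain ⟨z, hz⟩ := P.exists_div (A - B) ((P.crd_eq_zero_iff b p _).1 h1)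
    exact ⟨z, by rw [← hz]; abel⟩
  · rintro ⟨z, rfl⟩
    rw [map_add, map_nsmul]
    have : (p : ℕ) • P.crd b p z = 0 := by
      funext i
      simp
    rw [this, add_zero]

theorem PL_crd_ne_zero (p : ℕ) (A : EP N ℤ) :
    P.crd b p A ≠ 0 ↔ ∀ z : EP N ℤ, A ≠ p • z := by
  rw [← map_zero (P.crd b p), Ne, PL_crd_eq_iff]
  constructor
  · intro h z hz
    exact h ⟨z, by rw [hz, zero_add]⟩
  · rintro h ⟨z, hz⟩
    exact h z (by rw [hz, zero_add])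

/-- complex conjugation acts by `- ι_*` -/
theorem PL_conj (H : TrunkHyp N) {p : ℕ} (hp : 0 < p) (φ : EP N ℤ) :
    P.rhoM b H hp complexConjugation *ᵥ P.crd b p φ = - P.crd b p (ioEP N ℤ φ) := by
  obtain ⟨f, hf⟩ := H.exists_of_hom p hp φ φ.2
  have hf' := Rt.conj φ.2 hf
  have h1 : P.Kap b p (ESLib.gal N complexConjugation f)
      (P.rhoM b H hp complexConjugation *ᵥ P.crd b p φ) :=
    P.rhoM_spec H hp complexConjugation ⟨φ, hf, rfl⟩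
  have h3 := h1.unique H hp ⟨⟨_, io_mem_EP φ.2⟩, hf', rfl⟩
  rw [h3, ← map_neg]
  congr 1

/-- the eigenspace -/
def plY (Θ₀ : TT0 N →+* Module.End ℤ (EP N ℤ)) (p D : ℕ) (W : WeierstrassCurve ℤ) {q : ℕ}
    (hq : q.Prime) (hqN : ¬ q ∣ N) (e : ℤ) : Submodule (ZMod p) (Fin r → ZMod p) where
  carrier := {v | (∀ (ℓ : ℕ) (hℓ : ℓ.Prime) (hℓN : ¬ ℓ ∣ N), ¬ ℓ ∣ D →
      ihT b Θ₀ p hℓ hℓN *ᵥ v = ((W.apOfModel ℓ : ℤ) : ZMod p) • v) ∧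
    ihT b Θ₀ p hq hqN *ᵥ v = ((e : ℤ) : ZMod p) • v}
  add_mem' := by
    rintro v v' ⟨h1, h2⟩ ⟨h1', h2'⟩
    refine ⟨fun ℓ hℓ hℓN hD => ?_, ?_⟩
    · rw [Matrix.mulVec_add, h1 ℓ hℓ hℓN hD, h1' ℓ hℓ hℓN hD, smul_add]
    · rw [Matrix.mulVec_add, h2, h2', smul_add]
  zero_mem' := ⟨fun ℓ hℓ hℓN hD => by rw [Matrix.mulVec_zero, smul_zero], by
    rw [Matrix.mulVec_zero, smul_zero]⟩
  smul_mem' := by
    rintro c v ⟨h1, h2⟩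
    refine ⟨fun ℓ hℓ hℓN hD => ?_, ?_⟩
    · rw [Matrix.mulVec_smul, h1 ℓ hℓ hℓN hD, smul_comm]
    · rw [Matrix.mulVec_smul, h2, smul_comm]

variable {b}

theorem plY_stable {Θ₀ : TT0 N →+* Module.End ℤ (EP N ℤ)} {p D : ℕ} {W : WeierstrassCurve ℤ}
    {q : ℕ} {hq : q.Prime} {hqN : ¬ q ∣ N} {e : ℤ} (H : TrunkHyp N) (hTr : P.IsThetaTr Θ₀)
    (hp : 0 < p) (σ : GQ) (v : Fin r → ZMod p) (hv : v ∈ plY b Θ₀ p D W hq hqN e) :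
    P.rhoM b H hp σ *ᵥ v ∈ plY b Θ₀ p D W hq hqN e := by
  obtain ⟨h1, h2⟩ := hv
  have key : ∀ (ℓ : ℕ) (hℓ : ℓ.Prime) (hℓN : ¬ ℓ ∣ N) (c : ZMod p),
      ihT b Θ₀ p hℓ hℓN *ᵥ v = c • v →
      ihT b Θ₀ p hℓ hℓN *ᵥ (P.rhoM b H hp σ *ᵥ v) = c • (P.rhoM b H hp σ *ᵥ v) := by
    intro ℓ hℓ hℓN c h
    have h4 := P.rhoM_comm_T (b := b) H hp hTr hℓ hℓN σ
    rw [ihT] at h ⊢
    rw [Matrix.mulVec_mulVec, ← h4, ← Matrix.mulVec_mulVec, h, Matrix.mulVec_smul]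
  exact ⟨fun ℓ hℓ hℓN hD => key ℓ hℓ hℓN _ (h1 ℓ hℓ hℓN hD), key q hq hqN _ h2⟩

/-- membership of `crd x` in the eigenspace -/
theorem mem_plY_iff {Θ₀ : TT0 N →+* Module.End ℤ (EP N ℤ)} {p D : ℕ} {W : WeierstrassCurve ℤ}
    {q : ℕ} {hq : q.Prime} {hqN : ¬ q ∣ N} {e : ℤ} (x : EP N ℤ) :
    P.crd b p x ∈ plY b Θ₀ p D W hq hqN e ↔
      (∀ (ℓ : ℕ) (hℓ : ℓ.Prime) (hℓN : ¬ ℓ ∣ N), ¬ ℓ ∣ D →
        ∃ z : EP N ℤ, Θ₀ (heckeAlgebra.T hℓ hℓN hℓN) x = W.apOfModel ℓ • x + p • z) ∧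
      ∃ z : EP N ℤ, Θ₀ (heckeAlgebra.T hq hqN hqN) x = e • x + p • z := by
  have key : ∀ (ℓ : ℕ) (hℓ : ℓ.Prime) (hℓN : ¬ ℓ ∣ N) (c : ℤ),
      ihT b Θ₀ p hℓ hℓN *ᵥ P.crd b p x = ((c : ℤ) : ZMod p) • P.crd b p x ↔
      ∃ z : EP N ℤ, Θ₀ (heckeAlgebra.T hℓ hℓN hℓN) x = c • x + p • z := by
    intro ℓ hℓ hℓN c
    rw [ihT, ← P.crd_theta, Int.cast_smul_eq_zsmul, ← map_zsmul, PL_crd_eq_iff]
  constructor
  · rintro ⟨h1, h2⟩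
    exact ⟨fun ℓ hℓ hℓN hD => (key ℓ hℓ hℓN _).1 (h1 ℓ hℓ hℓN hD), (key q hq hqN _).1 h2⟩
  · rintro ⟨h1, h2⟩
    exact ⟨fun ℓ hℓ hℓN hD => (key ℓ hℓ hℓN _).2 (h1 ℓ hℓ hℓN hD), (key q hq hqN _).2 h2⟩

end

/-- (PLUS) -/
theorem exists_plus (W : WeierstrassCurve ℤ) (hΔ : W.Δ ≠ 0) {p : ℕ} [Fact p.Prime]
    (hp2 : p ≠ 2) (hirr : W.ModRepIsIrreducible p) {N q : ℕ} [NeZero N] (hq : q.Prime)
    (hqN : ¬ q ∣ N) (D : ℕ) (hD : D ≠ 0)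
    (Θ₀ : TT0 N →+* Module.End ℤ (EP N ℤ)) (hTr : P.IsThetaTr Θ₀) (e : ℤ) (x : EP N ℤ)
    (hx : ∀ z : EP N ℤ, x ≠ p • z)
    (heig : ∀ (ℓ : ℕ) (hℓ : ℓ.Prime) (hℓN : ¬ ℓ ∣ N), ¬ ℓ ∣ D →
      ∃ z : EP N ℤ, Θ₀ (heckeAlgebra.T hℓ hℓN hℓN) x = W.apOfModel ℓ • x + p • z)
    (hTq : ∃ z : EP N ℤ, Θ₀ (heckeAlgebra.T hq hqN hqN) x = e • x + p • z) :
    ∃ x' : EP N ℤ, (∀ z : EP N ℤ, x' ≠ p • z) ∧ ioEP N ℤ x' = x' ∧
      (∀ (ℓ : ℕ) (hℓ : ℓ.Prime) (hℓN : ¬ ℓ ∣ N), ¬ ℓ ∣ D →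
        ∃ z : EP N ℤ, Θ₀ (heckeAlgebra.T hℓ hℓN hℓN) x' = W.apOfModel ℓ • x' + p • z) ∧
      ∃ z : EP N ℤ, Θ₀ (heckeAlgebra.T hq hqN hqN) x' = e • x' + p • z := by
  have hpp : p.Prime := Fact.out
  have hp : 0 < p := hpp.pos
  have H : TrunkHyp N := (trunkHyp0 N).toTrunkHyp
  obtain ⟨r, b, -, -, -⟩ := H.theta
  set Y := plY b Θ₀ p D W hq hqN e with hY
  have hst : ∀ σ : GQ, ∀ v ∈ Y, P.rhoM b H hp σ *ᵥ v ∈ Y :=
    fun σ v hv => plY_stable H hTr hp σ v hv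
  have hxY : P.crd b p x ∈ Y := (mem_plY_iff x).2 ⟨heig, hTq⟩
  have hx0 : P.crd b p x ≠ 0 := (PL_crd_ne_zero b p x).2 hx
  -- some `v ∈ Y` is not fixed by complex conjugation
  have hex : ∃ v ∈ Y, v - P.rhoM b H hp complexConjugation *ᵥ v ≠ 0 := by
    by_contra hcon
    push Not at hcon
    have : Nontrivial Y := ⟨⟨⟨P.crd b p x, hxY⟩, 0, fun h => hx0 (congrArg Subtype.val h)⟩⟩
    refine PL_no_scalar W hΔ hp2 hirr (ihRes (P.rhoM b H hp) Y hst) ?_ (D * N * p)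
      (mul_ne_zero (mul_ne_zero hD (NeZero.ne N)) hpp.ne_zero) ?_ 1 ?_
    · obtain ⟨L, hL, h1⟩ := P.rhoM_level (b := b) H hp
      refine ⟨L, hL, fun σ hσ => ?_⟩
      apply LinearMap.ext
      intro v
      apply Subtype.ext
      rw [ihRes_apply, h1 σ hσ, Matrix.one_mulVec]
      rfl
    · intro ℓ hℓ hℓD 𝔄 h𝔄 σ hσ
      have hℓN : ¬ ℓ ∣ N := fun h => hℓD (Dvd.dvd.mul_right (Dvd.dvd.mul_left h D) p)
      have hℓD' : ¬ ℓ ∣ D := fun h => hℓD (Dvd.dvd.mul_right (Dvd.dvd.mul_right h N) p)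
      have hℓp : ¬ ℓ ∣ p := fun h => hℓD (Dvd.dvd.mul_left h _)
      have hes := P.rhoM_es (b := b) H hp hTr hℓ hℓN hℓp 𝔄 h𝔄 σ hσ
      apply LinearMap.ext
      intro v
      apply Subtype.ext
      have h1 := congrArg (fun M => M *ᵥ (v : Fin r → ZMod p)) hes
      simp only [Matrix.add_mulVec, Matrix.sub_mulVec, Matrix.zero_mulVec,
        ← Matrix.mulVec_mulVec] at h1
      have h2 := (hst σ v v.2).1 ℓ hℓ hℓN hℓD'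
      rw [ihT] at h2
      rw [h2, Matrix.natCast_mulVec] at h1
      exact h1
    · apply LinearMap.ext
      intro v
      apply Subtype.ext
      rw [ihRes_apply, one_smul]
      exact (sub_eq_zero.1 (hcon v v.2)).symm
  obtain ⟨v, hvY, hv⟩ := hex
  obtain ⟨φ, rfl⟩ := P.crd_surjective b p v
  have hcrd : P.crd b p (φ + ioEP N ℤ φ) =
      P.crd b p φ - P.rhoM b H hp complexConjugation *ᵥ P.crd b p φ := by
    rw [PL_conj, map_add, sub_neg_eq_add]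
  refine ⟨φ + ioEP N ℤ φ, (PL_crd_ne_zero b p _).1 (by rw [hcrd]; exact hv), ?_, ?_⟩
  · rw [map_add, ioEP_ioEP, add_comm]
  · refine (mem_plY_iff (b := b) (φ + ioEP N ℤ φ)).1 ?_
    rw [hcrd]
    exact Y.sub_mem hvY (hst _ _ hvY)

end Fermat.Agent.S41Lib
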