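import Fermat.Agent.ES.KDefs

/-!
# S41, block I (Ihara's lemma at `λ`): definitions

* `IsAd n γ γ'` : `γ' = δ γ δ⁻¹` for `δ = diag(n, 1)`
* `IsIo γ γ'` : `γ' = ι γ ι` for `ι = diag(-1, 1)`
* `ioHom N` : `γ ↦ ι γ ι` on `Γ₀(N)`
* `inHom q N`, `adHom q N` : the two maps `Γ₀(q N) → Γ₀(N)`, `γ ↦ γ` and `γ ↦ δ γ δ⁻¹`
-/

set_option autoImplicit false
set_option linter.unusedSimpArgs false

open CongruenceSubgroup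
open scoped MatrixGroups

namespace Fermat.Agent.S41Lib

/-- `γ' = δ γ δ⁻¹` for `δ = diag(n, 1)` -/
def IsAd (n : ℤ) (γ γ' : SL(2, ℤ)) : Prop :=
  γ' 0 0 = γ 0 0 ∧ γ' 0 1 = n * γ 0 1 ∧ n * γ' 1 0 = γ 1 0 ∧ γ' 1 1 = γ 1 1

/-- `γ' = ι γ ι` for `ι = diag(-1, 1)` -/
def IsIo (γ γ' : SL(2, ℤ)) : Prop :=
  γ' 0 0 = γ 0 0 ∧ γ' 0 1 = - γ 0 1 ∧ γ' 1 0 = - γ 1 0 ∧ γ' 1 1 = γ 1 1

/-- an element of `SL₂(ℤ)` from its entries -/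
def ihSL (a b c d : ℤ) (h : a * d - b * c = 1) : SL(2, ℤ) :=
  ⟨!![a, b; c, d], by rw [Matrix.det_fin_two_of, h]⟩

@[simp] theorem ihSL_00 (a b c d : ℤ) (h : a * d - b * c = 1) : ihSL a b c d h 0 0 = a := rfl
@[simp] theorem ihSL_01 (a b c d : ℤ) (h : a * d - b * c = 1) : ihSL a b c d h 0 1 = b := rfl
@[simp] theorem ihSL_10 (a b c d : ℤ) (h : a * d - b * c = 1) : ihSL a b c d h 1 0 = c := rfl
@[simp] theorem ihSL_11 (a b c d : ℤ) (h : a * d - b * c = 1) : ihSL a b c d h 1 1 = d := rfl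

theorem ih_det (γ : SL(2, ℤ)) : γ 0 0 * γ 1 1 - γ 0 1 * γ 1 0 = 1 := by
  have := γ.2
  rwa [Matrix.det_fin_two] at this

theorem ih_ext {γ γ' : SL(2, ℤ)} (h00 : γ 0 0 = γ' 0 0) (h01 : γ 0 1 = γ' 0 1)
    (h10 : γ 1 0 = γ' 1 0) (h11 : γ 1 1 = γ' 1 1) : γ = γ' := by
  ext i j
  fin_cases i <;> fin_cases j
  · exact h00
  · exact h01
  · exact h10
  · exact h11

theorem ih_mul00 (γ γ' : SL(2, ℤ)) : (γ * γ') 0 0 = γ 0 0 * γ' 0 0 + γ 0 1 * γ' 1 0 := by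
  rw [Matrix.SpecialLinearGroup.coe_mul, Matrix.mul_apply, Fin.sum_univ_two]
theorem ih_mul01 (γ γ' : SL(2, ℤ)) : (γ * γ') 0 1 = γ 0 0 * γ' 0 1 + γ 0 1 * γ' 1 1 := by
  rw [Matrix.SpecialLinearGroup.coe_mul, Matrix.mul_apply, Fin.sum_univ_two]
theorem ih_mul10 (γ γ' : SL(2, ℤ)) : (γ * γ') 1 0 = γ 1 0 * γ' 0 0 + γ 1 1 * γ' 1 0 := by
  rw [Matrix.SpecialLinearGroup.coe_mul, Matrix.mul_apply, Fin.sum_univ_two]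
theorem ih_mul11 (γ γ' : SL(2, ℤ)) : (γ * γ') 1 1 = γ 1 0 * γ' 0 1 + γ 1 1 * γ' 1 1 := by
  rw [Matrix.SpecialLinearGroup.coe_mul, Matrix.mul_apply, Fin.sum_univ_two]

/-- an element of `Γ₀(N)` from its entries -/
def ihG (N : ℕ) (a b c d : ℤ) (h : a * d - b * c = 1) (hc : (N : ℤ) ∣ c) : Gamma0 N :=
  ⟨ihSL a b c d h, by
    rw [Gamma0_mem, ihSL_10]
    exact (ZMod.intCast_zmod_eq_zero_iff_dvd c N).2 hc⟩

theorem ih_dvd {N : ℕ} (γ : Gamma0 N) : (N : ℤ) ∣ (γ : SL(2, ℤ)) 1 0 :=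
  (ZMod.intCast_zmod_eq_zero_iff_dvd _ N).1 (Gamma0_mem.1 γ.2)

/-- `γ ↦ ι γ ι` on `Γ₀(N)` -/
def ioHom (N : ℕ) : Gamma0 N →* Gamma0 N where
  toFun γ := ihG N ((γ : SL(2, ℤ)) 0 0) (-(γ : SL(2, ℤ)) 0 1) (-(γ : SL(2, ℤ)) 1 0)
    ((γ : SL(2, ℤ)) 1 1) (by have := ih_det (γ : SL(2, ℤ)); linarith)
    ((dvd_neg).2 (ih_dvd γ))
  map_one' := by
    apply Subtype.ext
    apply ih_ext <;> simp [ihG]
  map_mul' γ γ' := by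
    apply Subtype.ext
    apply ih_ext <;>
      simp only [ihG, Subgroup.coe_mul, ihSL_00, ihSL_01, ihSL_10, ihSL_11, ih_mul00, ih_mul01, ih_mul10,
        ih_mul11] <;> ring

theorem isIo_ioHom {N : ℕ} (γ : Gamma0 N) : IsIo (γ : SL(2, ℤ)) (ioHom N γ : SL(2, ℤ)) :=
  ⟨rfl, rfl, rfl, rfl⟩

theorem eq_ioHom {N : ℕ} {γ γ' : Gamma0 N} (h : IsIo (γ : SL(2, ℤ)) (γ' : SL(2, ℤ))) :
    γ' = ioHom N γ :=
  Subtype.ext (ih_ext h.1 h.2.1 h.2.2.1 h.2.2.2)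

/-- `Γ₀(q N) → Γ₀(N)`, `γ ↦ γ` -/
def inHom (q N : ℕ) : Gamma0 (q * N) →* Gamma0 N where
  toFun γ := ⟨(γ : SL(2, ℤ)), by
    rw [Gamma0_mem]
    exact (ZMod.intCast_zmod_eq_zero_iff_dvd _ N).2
      (dvd_trans (by exact_mod_cast dvd_mul_left N q) (ih_dvd γ))⟩
  map_one' := rfl
  map_mul' _ _ := rfl

@[simp] theorem coe_inHom (q N : ℕ) (γ : Gamma0 (q * N)) :
    ((inHom q N γ : Gamma0 N) : SL(2, ℤ)) = γ := rfl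

theorem ih_exists_c {q N : ℕ} (γ : Gamma0 (q * N)) :
    ∃ c : ℤ, (γ : SL(2, ℤ)) 1 0 = q * c ∧ (N : ℤ) ∣ c := by
  obtain ⟨c, hc⟩ := ih_dvd γ
  exact ⟨N * c, by rw [hc]; push_cast; ring, dvd_mul_right _ _⟩

theorem ih_q_mul_ediv {q N : ℕ} (γ : Gamma0 (q * N)) :
    (q : ℤ) * ((γ : SL(2, ℤ)) 1 0 / q) = (γ : SL(2, ℤ)) 1 0 := by
  obtain ⟨c, hc, -⟩ := ih_exists_c γ
  exact Int.mul_ediv_cancel' ⟨c, hc⟩

theorem ih_dvd_ediv {q N : ℕ} [NeZero q] (γ : Gamma0 (q * N)) :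
    (N : ℤ) ∣ (γ : SL(2, ℤ)) 1 0 / q := by
  obtain ⟨c, hc, hN⟩ := ih_exists_c γ
  have hq : (q : ℤ) ≠ 0 := by exact_mod_cast NeZero.ne q
  rwa [hc, Int.mul_ediv_cancel_left _ hq]

/-- `Γ₀(q N) → Γ₀(N)`, `γ ↦ δ γ δ⁻¹`, `δ = diag(q, 1)` -/
def adHom (q N : ℕ) [NeZero q] : Gamma0 (q * N) →* Gamma0 N where
  toFun γ := ihG N ((γ : SL(2, ℤ)) 0 0) (q * (γ : SL(2, ℤ)) 0 1) ((γ : SL(2, ℤ)) 1 0 / q)
    ((γ : SL(2, ℤ)) 1 1) (by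
      have := ih_det (γ : SL(2, ℤ))
      have h2 := ih_q_mul_ediv γ
      linear_combination this - (γ : SL(2, ℤ)) 0 1 * h2) (ih_dvd_ediv γ)
  map_one' := by
    apply Subtype.ext
    apply ih_ext <;> simp [ihG]
  map_mul' γ γ' := by
    have hq : (q : ℤ) ≠ 0 := by exact_mod_cast NeZero.ne q
    have h1 := ih_q_mul_ediv γ
    have h2 := ih_q_mul_ediv γ'
    have h3 := ih_q_mul_ediv (γ * γ')
    apply Subtype.ext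
    apply ih_ext
    · simp only [ihG, Subgroup.coe_mul, ihSL_00, ihSL_01, ihSL_10, ihSL_11, ih_mul00]
      linear_combination (-(γ : SL(2, ℤ)) 0 1) * h2
    · simp only [ihG, Subgroup.coe_mul, ihSL_00, ihSL_01, ihSL_10, ihSL_11, ih_mul01]
      ring
    · simp only [ihG, Subgroup.coe_mul, ihSL_00, ihSL_01, ihSL_10, ihSL_11, ih_mul10]
      apply mul_left_cancel₀ hq
      rw [Subgroup.coe_mul, ih_mul10] at h3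
      linear_combination h3 - (γ' : SL(2, ℤ)) 0 0 * h1 - (γ : SL(2, ℤ)) 1 1 * h2
    · simp only [ihG, Subgroup.coe_mul, ihSL_00, ihSL_01, ihSL_10, ihSL_11, ih_mul11]
      linear_combination (-(γ' : SL(2, ℤ)) 0 1) * h1

theorem isAd_adHom {q N : ℕ} [NeZero q] (γ : Gamma0 (q * N)) :
    IsAd q (γ : SL(2, ℤ)) (adHom q N γ : SL(2, ℤ)) :=
  ⟨rfl, rfl, ih_q_mul_ediv γ, rfl⟩

/-- the kernel of `a = (res, res ∘ Ad δ)` modulo `p` -/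
def InKer (N q p : ℕ) (x y : Additive (Gamma0 N) →+ ℤ) : Prop :=
  ∀ γ γ' : Gamma0 N, IsAd q γ γ' → (p : ℤ) ∣ x (Additive.ofMul γ) + y (Additive.ofMul γ')

end Fermat.Agent.S41Lib
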