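import Fermat.Agent.ES.Trunk
import Fermat.Agent.ES.ESFinal
import Fermat.Agent.ES.Theta
import Fermat.Agent.S40.DSLift
import Fermat.Agent.S29.EigenChar

/-!
# S41: an eigenvector modulo `p` in the lattice `EP N ℤ` attached to a normalised eigenform
-/

set_option autoImplicit false
set_option synthInstance.maxHeartbeats 400000

open CongruenceSubgroup Matrix
open scoped MatrixGroups

namespace Fermat.Agent.S41Lib

open Fermat.Agent.ESLib Fermat.Agent.ESLib.P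

/-- a rational integer in a maximal ideal above `p` is divisible by `p` -/
theorem EG_dvd_of_mem {p : ℕ} (hp : p.Prime) (𝔪 : Ideal (integralClosure ℤ ℂ)) (h𝔪 : 𝔪.IsMaximal)
    (hp𝔪 : (p : integralClosure ℤ ℂ) ∈ 𝔪) (n : ℤ) (hn : (n : integralClosure ℤ ℂ) ∈ 𝔪) :
    (p : ℤ) ∣ n := by
  by_contra hcon
  have hc : IsCoprime (p : ℤ) n := (Prime.coprime_iff_not_dvd (Nat.prime_iff_prime_int.1 hp)).2 hcon
  obtain ⟨u, w, huw⟩ := hc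
  apply h𝔪.ne_top
  rw [Ideal.eq_top_iff_one]
  have h1 : ((u * (p : ℤ) + w * n : ℤ) : integralClosure ℤ ℂ) = 1 := by rw [huw, Int.cast_one]
  rw [← h1]
  push_cast
  exact 𝔪.add_mem (𝔪.mul_mem_left _ hp𝔪) (𝔪.mul_mem_left _ hn)

/-- `IsTr` determines its second argument -/
theorem EG_isTr_unique {N : ℕ} [NeZero N] {ℓ : ℕ} [NeZero ℓ] (hℓ : ℓ.Prime) (hℓN : ¬ ℓ ∣ N)
    {B : Type*} [AddCommGroup B] {φ φ₁ φ₂ : Additive (Gamma0 N) →+ B} (h₁ : IsTr N ℓ φ φ₁)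
    (h₂ : IsTr N ℓ φ φ₂) : φ₁ = φ₂ := by
  refine AddMonoidHom.ext fun γ => ?_
  obtain ⟨γ', hγ'⟩ := exists_transfer N hℓ hℓN (Additive.toMul γ)
  have e1 := h₁ _ _ hγ'
  have e2 := h₂ _ _ hγ'
  exact e1.trans e2.symm

/-- (C11) the eigenvector modulo `p` -/
theorem exists_eigen_x (N p : ℕ) [NeZero N] [hpF : Fact p.Prime] (good : ℕ → Prop) (a : ℕ → ℤ)
    (f : CuspForm (Gamma0 N) 2) (hf : f.IsNormalizedEigenform)
    (𝔪 : Ideal (integralClosure ℤ ℂ)) (h𝔪 : 𝔪.IsMaximal) (hp𝔪 : (p : integralClosure ℤ ℂ) ∈ 𝔪)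
    (hcong : ∀ ℓ : ℕ, ℓ.Prime → ¬ ℓ ∣ N → good ℓ →
      ∃ c : integralClosure ℤ ℂ, (c : ℂ) = ModularFormClass.qCoeff f ℓ ∧
        c - ((a ℓ : ℤ) : integralClosure ℤ ℂ) ∈ 𝔪) :
    ∃ x : EP N ℤ, (¬ ∀ γ, (p : ℤ) ∣ (x : Additive (Gamma0 N) →+ ℤ) γ) ∧
      ∀ (ℓ : ℕ) [NeZero ℓ], ℓ.Prime → ¬ ℓ ∣ N → good ℓ → ∀ φ' : Additive (Gamma0 N) →+ ℤ,
        IsTr N ℓ (x : Additive (Gamma0 N) →+ ℤ) φ' →
        ∀ γ, (p : ℤ) ∣ φ' γ - a ℓ * (x : Additive (Gamma0 N) →+ ℤ) γ := by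
  classical
  obtain ⟨r, b, Θ₀, hinj, hΘ⟩ := (trunkHyp0 N).toTrunkHyp.theta
  obtain ⟨lam, hlam⟩ := Fermat.Agent.S29Lib.exists_eigenChar hf
  let χ : TT0 N →+* ℂ := (algebraMap (integralClosure ℤ ℂ) ℂ).comp lam
  have hχ : ∀ t, χ t = ((lam t : integralClosure ℤ ℂ) : ℂ) := fun t => rfl
  let I : Set (TT0 N) := {t | ∃ (ℓ : ℕ) (hℓ : ℓ.Prime) (hℓN : ¬ ℓ ∣ N), good ℓ ∧
    t = CuspForm.heckeAlgebra.T hℓ hℓN hℓN}
  let a' : TT0 N → ℤ := fun t => if h : t ∈ I then a h.choose else 0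
  have hkey : ∀ (ℓ : ℕ) (hℓ : ℓ.Prime) (hℓN : ¬ ℓ ∣ N), good ℓ →
      lam (CuspForm.heckeAlgebra.T hℓ hℓN hℓN) - ((a ℓ : ℤ) : integralClosure ℤ ℂ) ∈ 𝔪 := by
    intro ℓ hℓ hℓN hℓS
    obtain ⟨c, hc1, hc2⟩ := hcong ℓ hℓ hℓN hℓS
    have : lam (CuspForm.heckeAlgebra.T hℓ hℓN hℓN) = c := by
      apply Subtype.ext
      rw [hlam, hc1]
    rwa [this]
  have ha' : ∀ t ∈ I, lam t - ((a' t : ℤ) : integralClosure ℤ ℂ) ∈ 𝔪 := by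
    intro t ht
    have h1 : a' t = a ht.choose := dif_pos ht
    obtain ⟨hℓ, hℓN, hℓS, ht'⟩ := ht.choose_spec
    rw [h1]
    have h2 := hkey _ hℓ hℓN hℓS
    rwa [← ht'] at h2
  obtain ⟨v, hv0, hv⟩ := Fermat.Agent.S40Lib.exists_eigenvector_mod (ThM b Θ₀)
    (ThM_injective Θ₀ hinj) χ (p := p) 𝔪 h𝔪 hp𝔪 I a'
    (fun t ht => ⟨lam t, (hχ t).symm, ha' t ht⟩)
  -- lift `v`
  let x : EP N ℤ := ∑ i, ((v i).val : ℤ) • b i
  have hx : crd b p x = v := by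
    funext i
    rw [crd_apply]
    have : b.repr x i = ((v i).val : ℤ) := by
      simp only [x, map_sum, map_zsmul, Module.Basis.repr_self, Finsupp.coe_finsetSum,
        Finset.sum_apply, Finsupp.coe_smul, Pi.smul_apply, Finsupp.single_apply, smul_eq_mul,
        mul_ite, mul_one, mul_zero, Finset.sum_ite_eq', Finset.mem_univ, if_true]
    rw [this]
    simp
  refine ⟨x, ?_, ?_⟩
  · intro hdiv
    apply hv0
    rw [← hx]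
    exact (crd_eq_zero_iff b p x).2 hdiv
  · intro ℓ _ hℓ hℓN hgood φ' hφ' γ
    have ht : CuspForm.heckeAlgebra.T hℓ hℓN hℓN ∈ I := ⟨ℓ, hℓ, hℓN, hgood, rfl⟩
    have h1 : φ' = ((Θ₀ (CuspForm.heckeAlgebra.T hℓ hℓN hℓN) x : EP N ℤ) :
        Additive (Gamma0 N) →+ ℤ) := EG_isTr_unique hℓ hℓN hφ' (hΘ ℓ hℓ hℓN x)
    have h2 : (a ℓ : ZMod p) = (a' (CuspForm.heckeAlgebra.T hℓ hℓN hℓN) : ZMod p) := by
      rw [ZMod.intCast_eq_intCast_iff_dvd_sub]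
      apply EG_dvd_of_mem hpF.out 𝔪 h𝔪 hp𝔪
      have h1 := 𝔪.sub_mem (hkey ℓ hℓ hℓN hgood) (ha' _ ht)
      have h2 : ((a' (CuspForm.heckeAlgebra.T hℓ hℓN hℓN) - a ℓ : ℤ) : integralClosure ℤ ℂ) =
          lam (CuspForm.heckeAlgebra.T hℓ hℓN hℓN) - ((a ℓ : ℤ) : integralClosure ℤ ℂ) -
          (lam (CuspForm.heckeAlgebra.T hℓ hℓN hℓN) -
            ((a' (CuspForm.heckeAlgebra.T hℓ hℓN hℓN) : ℤ) : integralClosure ℤ ℂ)) := by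
        push_cast
        ring
      rw [h2]
      exact h1
    have h3 : crd b p (Θ₀ (CuspForm.heckeAlgebra.T hℓ hℓN hℓN) x) = crd b p (a ℓ • x) := by
      rw [crd_theta, hx, hv _ ht, map_zsmul, hx, ← h2]
      funext i
      simp
    have h4 := (crd_eq_iff b p _ _).1 h3 γ
    rw [h1]
    simpa using h4

end Fermat.Agent.S41Lib
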