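import Fermat.Agent.S41.IhDefs
import Fermat.Agent.S41.Ihara.RtConj

/-!
# S41, block I, leaf (CJ): `Rt` and complex conjugation
-/

set_option autoImplicit false
set_option synthInstance.maxHeartbeats 400000

open CongruenceSubgroup AlgebraicCurve ModularCurve UpperHalfPlane ModularForm
open ModularCurve.Period
open scoped MatrixGroups Manifold

namespace Fermat.Agent.S41Lib

open Fermat.Agent.ESLib Fermat.Agent.S18Lib Fermat.Agent.S20Lib Fermat.Agent.S24Lib

theorem ioHom_eq_jConj (N : ℕ) : ioHom N = jConjGamma0 N := by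
  ext γ : 1
  apply Subtype.ext
  apply ih_ext
  · show _ = (jConjSL (γ : SL(2, ℤ)) : Matrix (Fin 2) (Fin 2) ℤ) 0 0
    simp [ioHom, ihG]
  · show _ = (jConjSL (γ : SL(2, ℤ)) : Matrix (Fin 2) (Fin 2) ℤ) 0 1
    simp [ioHom, ihG]
  · show _ = (jConjSL (γ : SL(2, ℤ)) : Matrix (Fin 2) (Fin 2) ℤ) 1 0
    simp [ioHom, ihG]
  · show _ = (jConjSL (γ : SL(2, ℤ)) : Matrix (Fin 2) (Fin 2) ℤ) 1 1
    simp [ioHom, ihG]

/-- (CJ) -/
theorem Rt.conj {N m : ℕ} [NeZero N] {f : FB N} {x : Additive (Gamma0 N) →+ ℤ} (hx : x ∈ EP N ℤ)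
    (h : Rt N m f x) :
    Rt N m (gal N complexConjugation f) (-(x.comp (MonoidHom.toAdditive (ioHom N)))) := by
  rw [ioHom_eq_jConj]
  exact RC_conj complexConjugation RC_iotaC_conj hx h

end Fermat.Agent.S41Lib
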