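import Fermat.Agent.S41.IhDefs
import Fermat.Agent.S40.Equiv
import Fermat.Agent.S41.Ihara.ConjScalar

/-!
# S41, block I (Ihara's lemma at `λ`), (EN1): `no_conj_scalar`
-/

set_option autoImplicit false
set_option synthInstance.maxHeartbeats 400000

namespace Fermat.Agent.S41Lib

open Fermat.Agent.ESLib Fermat.Agent.S18Lib Fermat.Agent.S40Lib

/-- (EN1) a nonzero `𝔽_p[G_ℚ]`-module with the Frobenius relations of `E` on which complex
conjugation is the scalar `-1` cannot exist. -/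
theorem no_conj_scalar (W : WeierstrassCurve ℤ) (hΔ : W.Δ ≠ 0) {p : ℕ} [Fact p.Prime]
    (hp2 : p ≠ 2) (hirr : W.ModRepIsIrreducible p)
    {V : Type} [AddCommGroup V] [Module (ZMod p) V] [Nontrivial V]
    (ρ : GQ →* Module.End (ZMod p) V) (hlev : GaloisFactorsThroughFiniteLevel ρ)
    (D : ℕ) (hD : D ≠ 0)
    (hquad : ∀ ℓ : ℕ, ℓ.Prime → ¬ ℓ ∣ D → ∀ 𝔄 : ValuationSubring Qb, 𝔄.LiesOverPrime ℓ →
      ∀ σ : GQ, 𝔄.IsFrobeniusAt σ ℓ →
        ρ σ * ρ σ - ((W.apOfModel ℓ : ℤ) : ZMod p) • ρ σ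
          + (ℓ : ZMod p) • (1 : Module.End (ZMod p) V) = 0)
    (hc : ρ complexConjugation = -1) : False := by
  have hp : p.Prime := Fact.out
  obtain ⟨ρE, hρE, hlevE⟩ := exists_rhoE W hΔ hp2
  obtain ⟨-, hdim⟩ := finrank_ETor W hΔ hp2
  have hD' : D * 30 * p * W.Δ.natAbs ≠ 0 :=
    mul_ne_zero (mul_ne_zero (mul_ne_zero hD (by norm_num)) hp.ne_zero) (Int.natAbs_ne_zero.mpr hΔ)
  refine conj_not_scalar hp2 ρE hlevE (fun N hN => hirr.2 N (fun σ x hx => by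
      rw [← hρE]
      exact hN σ x hx)) hdim ρ hlev (D * 30 * p * W.Δ.natAbs) hD'
    (fun ℓ => ((W.apOfModel ℓ : ℤ) : ZMod p)) ?_ ?_ (-1) (by rw [hc, neg_one_smul])
  · intro ℓ hℓ hℓD 𝔄 h𝔄 σ hσ
    have h30 : ¬ ℓ ∣ 30 := fun h => hℓD
      (Dvd.dvd.mul_right (Dvd.dvd.mul_right (Dvd.dvd.mul_left h _) _) _)
    have hℓp : ℓ ≠ p := by
      rintro rfl
      exact hℓD (Dvd.dvd.mul_right (Dvd.intro_left _ rfl) _)
    have hgood : W.IsGoodPrimeFor ℓ := by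
      intro h
      exact hℓD (Dvd.dvd.mul_left (Int.natCast_dvd.mp h) _)
    have h5 : 5 ≤ ℓ := by
      by_contra hlt
      have h2 := hℓ.two_le
      have : ℓ = 2 ∨ ℓ = 3 ∨ ℓ = 4 := by omega
      rcases this with rfl | rfl | rfl
      · exact h30 (by norm_num)
      · exact h30 (by norm_num)
      · norm_num at hℓ
    apply LinearMap.ext
    intro x
    apply Subtype.ext
    have hx : p • x.1 = 0 := by
      have := x.2
      rwa [Submodule.mem_torsionBy_iff, natCast_zsmul] at this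
    have hrel := frob_rel W hΔ hℓ h5 hp hp2 hℓp hgood 𝔄 σ h𝔄 hσ x.1 hx
    have e1 : (ρE σ * ρE σ - ((W.apOfModel ℓ : ℤ) : ZMod p) • ρE σ
        + (ℓ : ZMod p) • (1 : Module.End (ZMod p) (ETor W p))) x =
        σ • σ • x - (W.apOfModel ℓ) • σ • x + (ℓ : ℤ) • x := by
      rw [LinearMap.add_apply, LinearMap.sub_apply, LinearMap.smul_apply, LinearMap.smul_apply,
        Module.End.mul_apply, Module.End.one_apply, hρE, hρE, Int.cast_smul_eq_zsmul,
        Nat.cast_smul_eq_nsmul, natCast_zsmul]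
    rw [e1]
    exact hrel
  · intro ℓ hℓ hℓD 𝔄 h𝔄 σ hσ
    exact hquad ℓ hℓ (fun h => hℓD
      (Dvd.dvd.mul_right (Dvd.dvd.mul_right (Dvd.dvd.mul_right h _) _) _)) 𝔄 h𝔄 σ hσ

end Fermat.Agent.S41Lib
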