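import Fermat.Agent.S41.IhLevel
import Fermat.Agent.ES.Rt

/-!
# S41, block I, leaf (GS): the kernel of `a` modulo `p` is Galois stable
-/

set_option autoImplicit false
set_option synthInstance.maxHeartbeats 400000
set_option linter.style.haveILetI false

open CongruenceSubgroup AlgebraicCurve ModularCurve UpperHalfPlane ModularForm
open scoped MatrixGroups Manifold

namespace Fermat.Agent.S41Lib

open Fermat.Agent.ESLib Fermat.Agent.S18Lib Fermat.Agent.S20Lib Fermat.Agent.S24Lib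
open Fermat.Agent.S34Lib

theorem GS_coe_pi1 {N q : ℕ} [NeZero N] [NeZero q] (f : FB N) :
    ((S34Lib.pi1 N q f : FB (q * N)) : LaurentSeries Qb) = (f : LaurentSeries Qb) :=
  IntermediateField.coe_inclusion (FB_le N q) f

theorem GS_gal_pi1 {N q : ℕ} [NeZero N] [NeZero q] (σ : GQ) (f : FB N) :
    ESLib.gal (q * N) σ (S34Lib.pi1 N q f) = S34Lib.pi1 N q (ESLib.gal N σ f) := by
  apply Subtype.ext
  rw [coe_gal, GS_coe_pi1, GS_coe_pi1, coe_gal]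

theorem GS_pi2_eq {N q : ℕ} [NeZero N] [NeZero q] [Fact q.Prime] (hqN : ¬ q ∣ N) (f : FB N) :
    S34Lib.pi2 N q hqN f = wq N q hqN (S34Lib.pi1 N q f) := by
  rw [S34Lib.pi2, AlgHom.comp_apply]
  rfl

theorem GS_gal_pi2 {N q : ℕ} [NeZero N] [NeZero q] [Fact q.Prime] (hqN : ¬ q ∣ N) (σ : GQ)
    (f : FB N) :
    ESLib.gal (q * N) σ (S34Lib.pi2 N q hqN f) = S34Lib.pi2 N q hqN (ESLib.gal N σ f) := by
  rw [GS_pi2_eq, GS_pi2_eq, ← wq_gal, GS_gal_pi1]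

/-- every pair `(γ, γ')` with `IsAd q γ γ'` is `(inHom g, adHom g)` -/
theorem GS_exists_lift {N q : ℕ} [NeZero q] (γ γ' : Gamma0 N)
    (h : IsAd q (γ : SL(2, ℤ)) (γ' : SL(2, ℤ))) :
    ∃ g : Gamma0 (q * N), inHom q N g = γ ∧ adHom q N g = γ' := by
  have hq : (q : ℤ) ≠ 0 := by exact_mod_cast NeZero.ne q
  obtain ⟨h00, h01, h10, h11⟩ := h
  have hmem : (γ : SL(2, ℤ)) ∈ Gamma0 (q * N) := by
    rw [Gamma0_mem, ZMod.intCast_zmod_eq_zero_iff_dvd, ← h10]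
    push_cast
    exact mul_dvd_mul_left _ (ih_dvd γ')
  refine ⟨⟨γ, hmem⟩, Subtype.ext rfl, ?_⟩
  obtain ⟨a00, a01, a10, a11⟩ := isAd_adHom (⟨γ, hmem⟩ : Gamma0 (q * N))
  apply Subtype.ext
  apply ih_ext
  · rw [a00, h00]
  · rw [a01, h01]
  · apply mul_left_cancel₀ hq
    rw [a10, h10]
  · rw [a11, h11]

/-- (GS) -/
theorem InKer.gal {N q p : ℕ} [NeZero N] (hq : q.Prime) (hqN : ¬ q ∣ N) (hp : 0 < p)
    {x y x' y' : Additive (Gamma0 N) →+ ℤ} (hx : x ∈ EP N ℤ) (hy : y ∈ EP N ℤ)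
    (hx' : x' ∈ EP N ℤ) (hy' : y' ∈ EP N ℤ) (h : InKer N q p x y) {f g : FB N}
    (hf : Rt N p f x) (hg : Rt N p g y) (σ : GQ) (hf' : Rt N p (ESLib.gal N σ f) x')
    (hg' : Rt N p (ESLib.gal N σ g) y') : InKer N q p x' y' := by
  haveI : Fact q.Prime := ⟨hq⟩
  haveI : NeZero q := ⟨hq.ne_zero⟩
  have hF := Rt.mul (comp_mem_EP (q := q) hx).1 (comp_mem_EP (q := q) hy).2 (Rt.pi1 (q := q) hf)
    (Rt.pi2 hqN hy hg)
  have hF0 : Rt (q * N) p (S34Lib.pi1 N q f * S34Lib.pi2 N q hqN g) 0 := by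
    refine Rt.of_congr hF fun γ => ?_
    rw [AddMonoidHom.zero_apply, sub_zero]
    exact h _ _ (isAd_adHom (Additive.toMul γ))
  obtain ⟨w, hw⟩ := Rt.eq_pow hp hF0
  have hf0 : f ≠ 0 := (Rt.isKum hp hf hx).1
  have hg0 : g ≠ 0 := (Rt.isKum hp hg hy).1
  have hw0 : w ≠ 0 := by
    rintro rfl
    rw [zero_pow hp.ne'] at hw
    rcases mul_eq_zero.1 hw with h1 | h1
    · exact hf0 ((map_eq_zero _).1 h1)
    · exact hg0 ((map_eq_zero _).1 h1)
  have hw' := congrArg (ESLib.gal (q * N) σ) hw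
  rw [map_mul, map_pow, GS_gal_pi1, GS_gal_pi2] at hw'
  have hF' := Rt.mul (comp_mem_EP (q := q) hx').1 (comp_mem_EP (q := q) hy').2
    (Rt.pi1 (q := q) hf') (Rt.pi2 hqN hy' hg')
  rw [hw'] at hF'
  have hσw : ESLib.gal (q * N) σ w ≠ 0 := (map_ne_zero_iff _ (ESLib.gal (q * N) σ).injective).2 hw0
  have hc := Rt.congr hp
    ((EP (q * N) ℤ).add_mem (comp_mem_EP (q := q) hx').1 (comp_mem_EP (q := q) hy').2)
    (zero_mem _) hF' (Rt.pow_self p hσw)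
  intro γ γ' hγ
  obtain ⟨g0, rfl, rfl⟩ := GS_exists_lift γ γ' hγ
  have := hc (Additive.ofMul g0)
  rw [AddMonoidHom.zero_apply, sub_zero] at this
  exact this

end Fermat.Agent.S41Lib
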