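import Fermat.Agent.S41.IhDefs
import Fermat.Agent.S41.Ihara.RtLevel
import Fermat.Agent.S34.ModDefs

/-!
# S41, block I, leaf (LV): `Rt` and the two degeneracy maps
-/

set_option autoImplicit false
set_option synthInstance.maxHeartbeats 400000

open CongruenceSubgroup AlgebraicCurve ModularCurve UpperHalfPlane ModularForm
open scoped MatrixGroups Manifold

namespace Fermat.Agent.S41Lib

open Fermat.Agent.ESLib Fermat.Agent.S18Lib Fermat.Agent.S20Lib Fermat.Agent.S24Lib
open Fermat.Agent.S34Lib Fermat.Agent.S36Lib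

/-- (LV0) -/
theorem comp_mem_EP {N q : ℕ} [NeZero q] {x : Additive (Gamma0 N) →+ ℤ} (hx : x ∈ EP N ℤ) :
    x.comp (MonoidHom.toAdditive (inHom q N)) ∈ EP (q * N) ℤ ∧
    x.comp (MonoidHom.toAdditive (adHom q N)) ∈ EP (q * N) ℤ := by
  constructor
  · intro γ hγ
    exact hx (inHom q N γ) hγ
  · intro γ hγ
    refine hx (adHom q N γ) ?_
    rw [Matrix.trace_fin_two] at hγ ⊢
    exact hγ

/-- (LV1) same `u`, `v` -/
theorem Rt.pi1 {N q m : ℕ} [NeZero N] [NeZero q] {f : FB N} {x : Additive (Gamma0 N) →+ ℤ}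
    (h : Rt N m f x) :
    Rt (q * N) m (S34Lib.pi1 N q f) (x.comp (MonoidHom.toAdditive (inHom q N))) := by
  have h1 := RL_up (N' := q * N) (dvd_mul_left N q) h
    (x.comp (MonoidHom.toAdditive (inHom q N))) (by
      intro γ' γ hγ
      have : inHom q N γ' = γ := Subtype.ext hγ
      rw [← this]
      rfl)
  exact h1

/-- (LV2) -/
theorem Rt.pi2 {N q m : ℕ} [NeZero N] [NeZero q] [Fact q.Prime] (hqN : ¬ q ∣ N) {f : FB N}
    {x : Additive (Gamma0 N) →+ ℤ} (hx : x ∈ EP N ℤ) (h : Rt N m f x) :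
    Rt (q * N) m (S34Lib.pi2 N q hqN f) (x.comp (MonoidHom.toAdditive (adHom q N))) := by
  have hd : N * q ∣ q * N := by rw [mul_comm]
  have h1 := RL_upB (N' := q * N) (d := q) hd hx h
    (x.comp (MonoidHom.toAdditive (adHom q N))) (by
      intro γ' γ h00 h01 h10 h11
      have hq : (q : ℤ) ≠ 0 := by exact_mod_cast NeZero.ne q
      obtain ⟨a00, a01, a10, a11⟩ := isAd_adHom γ'
      have : adHom q N γ' = γ := by
        apply Subtype.ext
        apply ih_ext
        · rw [a00, h00]
        · rw [a01, h01]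
        · apply mul_left_cancel₀ hq
          rw [a10, h10]
        · rw [a11, h11]
      rw [← this]
      rfl)
  have e : S34Lib.pi2 N q hqN f = bHom q hd f := by
    apply Subtype.ext
    rw [coe_bHom]
    exact coe_wq N q hqN (f : LaurentSeries Qb) f.2 _
  rw [e]
  exact h1

end Fermat.Agent.S41Lib
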