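import Fermat.Agent.S41.IhEnd
import Fermat.Agent.S41.F1.Lvl
import Fermat.Agent.S44.TransIrr

/-!
# S41, block I: Ihara's lemma at `λ` in the PAIR form `(IH)` (hypotheses of S41, `incl` / `adD`)
-/

set_option autoImplicit false
set_option synthInstance.maxHeartbeats 400000

open CongruenceSubgroup AlgebraicCurve ModularCurve UpperHalfPlane ModularForm
open WeierstrassCurve
open scoped MatrixGroups Manifold

namespace Fermat.Agent.S41Lib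

open Fermat.Agent.ESLib Fermat.Agent.S18Lib Fermat.Agent.S20Lib Fermat.Agent.S24Lib
open Fermat.Agent.S40Lib

/-- the two facts about the integral model used everywhere in S41 -/
theorem ih_model (E : WeierstrassCurve ℚ) [E.IsElliptic] {W : WeierstrassCurve ℤ}
    (hW : W.IsIntegralModelOf E) {p : ℕ}
    (hirr : Affine.Point.GaloisRepIsIrreducible (K := AlgebraicClosure ℚ) ℚ E p) :
    W.Δ ≠ 0 ∧ W.ModRepIsIrreducible p := by
  obtain ⟨C, hC⟩ := hW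
  have hΔ : E.Δ ≠ 0 := E.isUnit_Δ.ne_zero
  constructor
  · intro h0
    have h1 : (C • E).Δ ≠ 0 := by
      rw [WeierstrassCurve.variableChange_Δ]
      exact mul_ne_zero (by simp) hΔ
    apply h1
    rw [hC, WeierstrassCurve.map_Δ, h0, map_zero]
  · obtain ⟨Θ, hΘ⟩ := Fermat.Agent.S44Lib.exists_equiv_variableChange E hΔ C
    unfold WeierstrassCurve.ModRepIsIrreducible
    rw [← hC]
    exact Fermat.Agent.S44Lib.T2_irr Θ hΘ p hirr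

/-- the pairs `(incl g, adD g)` are the pairs with `IsAd q` -/
theorem inKer_of_incl_adD {N q p : ℕ} [NeZero q] (hcop : Nat.Coprime N q)
    {x y : Additive (Gamma0 N) →+ ℤ}
    (h : ∀ g : Gamma0 (N * q), (p : ℤ) ∣ x (Additive.ofMul (incl N q g)) +
      y (Additive.ofMul (adD N q g))) : InKer N q p x y := by
  intro γ γ' hγ
  have hq : (q : ℤ) ≠ 0 := by exact_mod_cast NeZero.ne q
  obtain ⟨a, ha⟩ := exists_incl_eq hcop γ ⟨_, hγ.2.2.1.symm⟩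
  have h2 : adD N q a = γ' := by
    apply Gamma0_ext
    rw [adD_val]
    have e : (a : SL(2, ℤ)) = (γ : SL(2, ℤ)) := by rw [← ha]; rfl
    rw [e]
    ext i j
    fin_cases i <;> fin_cases j
    · exact hγ.1.symm
    · exact hγ.2.1.symm
    · show (γ : SL(2, ℤ)).val 1 0 / q = (γ' : SL(2, ℤ)).val 1 0
      have : (γ : SL(2, ℤ)).val 1 0 = q * (γ' : SL(2, ℤ)).val 1 0 := hγ.2.2.1.symm
      rw [this, Int.mul_ediv_cancel_left _ hq]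
    · exact hγ.2.2.2.symm
  have h3 := h a
  rwa [ha, h2] at h3

/-- **(IH)**: Ihara's lemma at `λ`, pair form. -/
theorem ihara_pair (E : WeierstrassCurve ℚ) [E.IsElliptic] {W : WeierstrassCurve ℤ}
    (hW : W.IsIntegralModelOf E) {p N q : ℕ} (hp : p.Prime) (hp2 : p ≠ 2) [NeZero N] [NeZero q]
    (hq : q.Prime) (hqN : ¬ q ∣ N)
    (hirr : Affine.Point.GaloisRepIsIrreducible (K := AlgebraicClosure ℚ) ℚ E p)
    (φ₁ φ₂ : EP N ℤ)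
    (hker : ∀ g : Gamma0 (N * q), (p : ℤ) ∣
      (φ₁ : Additive (Gamma0 N) →+ ℤ) (Additive.ofMul (incl N q g)) +
        (φ₂ : Additive (Gamma0 N) →+ ℤ) (Additive.ofMul (adD N q g)))
    (heig : ∀ φ : EP N ℤ, φ = φ₁ ∨ φ = φ₂ → ∀ (ℓ : ℕ) [NeZero ℓ], ℓ.Prime →
      W.IsGoodPrimeFor ℓ → ¬ ℓ ∣ N * q → ℓ ≠ p → ∀ φ' : Additive (Gamma0 N) →+ ℤ,
      IsTr N ℓ (φ : Additive (Gamma0 N) →+ ℤ) φ' → ∀ γ : Additive (Gamma0 N),
        (p : ℤ) ∣ φ' γ - W.apOfModel ℓ * (φ : Additive (Gamma0 N) →+ ℤ) γ) :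
    (∀ γ : Additive (Gamma0 N), (p : ℤ) ∣ (φ₁ : Additive (Gamma0 N) →+ ℤ) γ) ∧
      (∀ γ : Additive (Gamma0 N), (p : ℤ) ∣ (φ₂ : Additive (Gamma0 N) →+ ℤ) γ) := by
  haveI : Fact p.Prime := ⟨hp⟩
  obtain ⟨hΔ, hirr'⟩ := ih_model E hW hirr
  have hcop : Nat.Coprime N q := ((Nat.Prime.coprime_iff_not_dvd hq).mpr hqN).symm
  have hk := inKer_of_incl_adD hcop hker
  have H : TrunkHyp N := (trunkHyp0 N).toTrunkHyp
  obtain ⟨r, b, Θ₀, -, hTr⟩ := H.theta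
  have hD : N * q * p * W.Δ.natAbs ≠ 0 :=
    mul_ne_zero (mul_ne_zero (mul_ne_zero (NeZero.ne N) (NeZero.ne q)) hp.ne_zero)
      (Int.natAbs_ne_zero.mpr hΔ)
  have key : ∀ φ : EP N ℤ, φ = φ₁ ∨ φ = φ₂ → ∀ (ℓ : ℕ) (hℓ : ℓ.Prime) (hℓN : ¬ ℓ ∣ N),
      ¬ ℓ ∣ N * q * p * W.Δ.natAbs → ∀ γ : Additive (Gamma0 N),
      (p : ℤ) ∣ ((Θ₀ (CuspForm.heckeAlgebra.T hℓ hℓN hℓN) φ : EP N ℤ) :
        Additive (Gamma0 N) →+ ℤ) γ - W.apOfModel ℓ * (φ : Additive (Gamma0 N) →+ ℤ) γ := by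
    intro φ hφ ℓ hℓ hℓN hℓD γ
    haveI : NeZero ℓ := ⟨hℓ.ne_zero⟩
    refine heig φ hφ ℓ hℓ ?_ ?_ ?_ _ (hTr ℓ hℓ hℓN φ) γ
    · intro h
      exact hℓD (Dvd.dvd.mul_left (Int.natCast_dvd.mp h) _)
    · intro h
      exact hℓD (Dvd.dvd.mul_right (Dvd.dvd.mul_right h _) _)
    · rintro rfl
      exact hℓD (Dvd.dvd.mul_right (Dvd.intro_left _ rfl) _)
  exact ⟨ihara_lambda W hΔ hp2 hirr' hq hqN _ hD Θ₀ hTr φ₁ φ₂ hk (key φ₁ (Or.inl rfl)),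
    ihara_lambda W hΔ hp2 hirr' hq hqN _ hD Θ₀ hTr φ₂ φ₁ (hk.swap hq hqN) (key φ₂ (Or.inr rfl))⟩

end Fermat.Agent.S41Lib
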