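import Fermat.Agent.S41.IhConj
import Fermat.Agent.S41.Ihara.Sign

/-!
# S41, block I, leaf (SW3): `InKer.sign`, `InKer.swap` (from `Ihara/Sign.lean`)
-/

set_option autoImplicit false
set_option synthInstance.maxHeartbeats 400000

open CongruenceSubgroup AlgebraicCurve ModularCurve UpperHalfPlane ModularForm
open ModularCurve.Period
open scoped MatrixGroups Manifold

namespace Fermat.Agent.S41Lib

open Fermat.Agent.ESLib

theorem isAd_of_isDel {N q : ℕ} {g g' : Gamma0 N} (h : IsDel q g g') :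
    IsAd q (g : SL(2, ℤ)) (g' : SL(2, ℤ)) :=
  ⟨h.1, h.2.2.1, h.2.2.2.symm, h.2.1⟩

theorem SW_ker {N q p : ℕ} {x y : Additive (Gamma0 N) →+ ℤ} (h : InKer N q p x y)
    (g g' : Gamma0 N) (hg : IsDel q g g') :
    ((Int.castAddHom (ZMod p)).comp x) (Additive.ofMul g) +
      ((Int.castAddHom (ZMod p)).comp y) (Additive.ofMul g') = 0 := by
  have h1 := h g g' (isAd_of_isDel hg)
  rw [← ZMod.intCast_zmod_eq_zero_iff_dvd] at h1
  push_cast at h1
  exact h1

/-- (SW3) -/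
theorem InKer.sign {N q p : ℕ} [NeZero N] (hq : q.Prime) (hqN : ¬ q ∣ N)
    {x y : Additive (Gamma0 N) →+ ℤ} (hx : x ∈ EP N ℤ) (h : InKer N q p x y)
    (γ : Gamma0 N) : (p : ℤ) ∣ x (Additive.ofMul (ioHom N γ)) - x (Additive.ofMul γ) := by
  have hcop : Nat.Coprime q N := (Nat.Prime.coprime_iff_not_dvd hq).mpr hqN
  have h₁ : (Int.castAddHom (ZMod p)).comp x ∈ EP N (ZMod p) := by
    intro g hg
    show ((x (Additive.ofMul g) : ℤ) : ZMod p) = 0
    rw [hx g hg, Int.cast_zero]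
  have h2 := sign_main hq hqN h₁
    (fun g g' a b c d => (rule_of_ker hcop (SW_ker h) g g' a b c d).1) γ
  rw [ioHom_eq_jConj, ← ZMod.intCast_zmod_eq_zero_iff_dvd]
  push_cast
  rw [sub_eq_zero]
  exact h2

theorem InKer.swap {N q p : ℕ} (hq : q.Prime) (hqN : ¬ q ∣ N)
    {x y : Additive (Gamma0 N) →+ ℤ} (h : InKer N q p x y) : InKer N q p y x := by
  have hcop : Nat.Coprime q N := (Nat.Prime.coprime_iff_not_dvd hq).mpr hqN
  intro γ γ' hγ
  have hD : IsDel q γ γ' := ⟨hγ.1, hγ.2.2.2, hγ.2.1, hγ.2.2.1.symm⟩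
  have h1 := ker_swap hcop (SW_ker h) γ γ' hD
  rw [← ZMod.intCast_zmod_eq_zero_iff_dvd]
  push_cast
  exact h1

end Fermat.Agent.S41Lib
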