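import Fermat.Agent.S41.IhSwap
import Fermat.Agent.S41.IhConj
import Fermat.Agent.S41.Ihara.ConjScalar
import Fermat.Agent.ES.TrunkX
import Fermat.Agent.S40.Equiv

/-!
# S41, block I: tools shared by `IhEnd.lean` and `IhPlus.lean`
-/

set_option autoImplicit false
set_option synthInstance.maxHeartbeats 400000

open CongruenceSubgroup AlgebraicCurve ModularCurve UpperHalfPlane ModularForm
open scoped MatrixGroups Manifold

namespace Fermat.Agent.S41Lib

open Fermat.Agent.ESLib Fermat.Agent.S18Lib Fermat.Agent.S20Lib Fermat.Agent.S24Lib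
open Fermat.Agent.S40Lib Matrix

/-! ### restriction of a matrix representation to a stable subspace -/

/-- the restriction of a matrix representation to a stable subspace -/
def ihRes {G K : Type} [Group G] [Field K] {r : ℕ} (ρ : G →* Matrix (Fin r) (Fin r) K)
    (X : Submodule K (Fin r → K)) (hst : ∀ g, ∀ v ∈ X, ρ g *ᵥ v ∈ X) :
    G →* Module.End K X where
  toFun g := (Matrix.mulVecLin (ρ g)).restrict (hst g)
  map_one' := by
    apply LinearMap.ext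
    intro v
    apply Subtype.ext
    simp
  map_mul' g h := by
    apply LinearMap.ext
    intro v
    apply Subtype.ext
    show ρ (g * h) *ᵥ (v : Fin r → K) = ρ g *ᵥ (ρ h *ᵥ (v : Fin r → K))
    rw [map_mul, Matrix.mulVec_mulVec]

theorem ihRes_apply {G K : Type} [Group G] [Field K] {r : ℕ} (ρ : G →* Matrix (Fin r) (Fin r) K)
    (X : Submodule K (Fin r → K)) (hst : ∀ g, ∀ v ∈ X, ρ g *ᵥ v ∈ X) (g : G) (v : X) :
    ((ihRes ρ X hst g v : X) : Fin r → K) = ρ g *ᵥ (v : Fin r → K) := rfl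

/-! ### `InKer` is a subgroup -/

theorem InKer.add {N q p : ℕ} {x y x' y' : Additive (Gamma0 N) →+ ℤ} (h : InKer N q p x y)
    (h' : InKer N q p x' y') : InKer N q p (x + x') (y + y') := by
  intro γ γ' hγ
  have h1 := h γ γ' hγ
  have h2 := h' γ γ' hγ
  rw [AddMonoidHom.add_apply, AddMonoidHom.add_apply]
  have := dvd_add h1 h2
  rwa [add_add_add_comm] at this

theorem InKer.zsmul {N q p : ℕ} {x y : Additive (Gamma0 N) →+ ℤ} (h : InKer N q p x y) (n : ℤ) :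
    InKer N q p (n • x) (n • y) := by
  intro γ γ' hγ
  have h1 := h γ γ' hγ
  rw [AddMonoidHom.zsmul_apply, AddMonoidHom.zsmul_apply, smul_eq_mul, smul_eq_mul, ← mul_add]
  exact Dvd.dvd.mul_left h1 n

theorem InKer.zero (N q p : ℕ) : InKer N q p 0 0 := by
  intro γ γ' _
  simp

theorem io_mem_EP {N : ℕ} {x : Additive (Gamma0 N) →+ ℤ} (hx : x ∈ EP N ℤ) :
    -(x.comp (MonoidHom.toAdditive (ioHom N))) ∈ EP N ℤ := by
  apply neg_mem
  intro γ hγ
  refine hx (ioHom N γ) ?_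
  rw [Matrix.trace_fin_two] at hγ ⊢
  exact hγ

/-- the matrix of `T_ℓ` modulo `p` -/
noncomputable def ihT {N : ℕ} [NeZero N] {r : ℕ} (b : Module.Basis (Fin r) ℤ (EP N ℤ))
    (Θ₀ : TT0 N →+* Module.End ℤ (EP N ℤ)) (p : ℕ) {ℓ : ℕ} (hℓ : ℓ.Prime) (hℓN : ¬ ℓ ∣ N) :
    Matrix (Fin r) (Fin r) (ZMod p) :=
  (P.ThM b Θ₀ (CuspForm.heckeAlgebra.T hℓ hℓN hℓN)).map (Int.castRingHom (ZMod p))

/-- complex conjugation is not a scalar on a nonzero module with the Frobenius relations of `E` -/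
theorem PL_no_scalar (W : WeierstrassCurve ℤ) (hΔ : W.Δ ≠ 0) {p : ℕ} [Fact p.Prime]
    (hp2 : p ≠ 2) (hirr : W.ModRepIsIrreducible p)
    {V : Type} [AddCommGroup V] [Module (ZMod p) V] [Nontrivial V]
    (ρ : GQ →* Module.End (ZMod p) V) (hlev : GaloisFactorsThroughFiniteLevel ρ)
    (D : ℕ) (hD : D ≠ 0)
    (hquad : ∀ ℓ : ℕ, ℓ.Prime → ¬ ℓ ∣ D → ∀ 𝔄 : ValuationSubring Qb, 𝔄.LiesOverPrime ℓ →
      ∀ σ : GQ, 𝔄.IsFrobeniusAt σ ℓ →
        ρ σ * ρ σ - ((W.apOfModel ℓ : ℤ) : ZMod p) • ρ σ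
          + (ℓ : ZMod p) • (1 : Module.End (ZMod p) V) = 0)
    (ε : ZMod p) (hc : ρ complexConjugation = ε • (1 : Module.End (ZMod p) V)) : False := by
  have hp : p.Prime := Fact.out
  obtain ⟨ρE, hρE, hlevE⟩ := exists_rhoE W hΔ hp2
  obtain ⟨-, hdim⟩ := finrank_ETor W hΔ hp2
  have hD' : D * 30 * p * W.Δ.natAbs ≠ 0 :=
    mul_ne_zero (mul_ne_zero (mul_ne_zero hD (by norm_num)) hp.ne_zero) (Int.natAbs_ne_zero.mpr hΔ)
  refine conj_not_scalar hp2 ρE hlevE (fun N hN => hirr.2 N (fun σ x hx => by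
      rw [← hρE]
      exact hN σ x hx)) hdim ρ hlev (D * 30 * p * W.Δ.natAbs) hD'
    (fun ℓ => ((W.apOfModel ℓ : ℤ) : ZMod p)) ?_ ?_ ε hc
  · intro ℓ hℓ hℓD 𝔄 h𝔄 σ hσ
    have h30 : ¬ ℓ ∣ 30 := fun h => hℓD
      (Dvd.dvd.mul_right (Dvd.dvd.mul_right (Dvd.dvd.mul_left h _) _) _)
    have hℓp : ℓ ≠ p := by
      rintro rfl
      exact hℓD (Dvd.dvd.mul_right (Dvd.intro_left _ rfl) _)
    have hgood : W.IsGoodPrimeFor ℓ := by
      intro h
      exact hℓD (Dvd.dvd.mul_left (Int.natCast_dvd.mp h) _)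
    have h5 : 5 ≤ ℓ := by
      by_contra hlt
      have h2 := hℓ.two_le
      have : ℓ = 2 ∨ ℓ = 3 ∨ ℓ = 4 := by omega
      rcases this with rfl | rfl | rfl
      · exact h30 (by norm_num)
      · exact h30 (by norm_num)
      · norm_num at hℓ
    apply LinearMap.ext
    intro x
    apply Subtype.ext
    have hx : p • x.1 = 0 := by
      have := x.2
      rwa [Submodule.mem_torsionBy_iff, natCast_zsmul] at this
    have hrel := frob_rel W hΔ hℓ h5 hp hp2 hℓp hgood 𝔄 σ h𝔄 hσ x.1 hx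
    have e1 : (ρE σ * ρE σ - ((W.apOfModel ℓ : ℤ) : ZMod p) • ρE σ
        + (ℓ : ZMod p) • (1 : Module.End (ZMod p) (ETor W p))) x =
        σ • σ • x - (W.apOfModel ℓ) • σ • x + (ℓ : ℤ) • x := by
      rw [LinearMap.add_apply, LinearMap.sub_apply, LinearMap.smul_apply, LinearMap.smul_apply,
        Module.End.mul_apply, Module.End.one_apply, hρE, hρE, Int.cast_smul_eq_zsmul,
        Nat.cast_smul_eq_nsmul, natCast_zsmul]
    rw [e1]
    exact hrel
  · intro ℓ hℓ hℓD 𝔄 h𝔄 σ hσ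
    exact hquad ℓ hℓ (fun h => hℓD
      (Dvd.dvd.mul_right (Dvd.dvd.mul_right (Dvd.dvd.mul_right h _) _) _)) 𝔄 h𝔄 σ hσ

end Fermat.Agent.S41Lib
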